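/-
Project MW (S17), GLOBAL leaf **[DIAG]** (helper1), part 1: ZERO DIVISORS OF SECTIONS OF A COMPLETE
SYSTEM.  `y` a basis of `L(m∞)` (`mw_IsComplete`), `G₀ ∈ L(m∞)` of exact pole order `m`:

* `mw_diag_mem_L_iff`   : `f ∈ L(m∞) ↔ ord_∞ f ≥ -m ∧ ∀ z ≠ ∞, ord_z f ≥ 0`  (`f ≠ 0`);
* `mw_diag_exists_cc`   : every `G ∈ L(m∞)` is a section `mw_sec y cc`;
* `mw_diag_ord_piv`     : the pivot of `y` at `z` has order `0` (`z ≠ ∞`), `-m` (`z = ∞`);
* `mw_diag_zeroMult`    : `Z_cc(z) = ord_z G_cc + m·[z = ∞]`;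
* `mw_diag_finsum_eq`   : the punctured sums of `[GKL]` in terms of the Weil machine `mw_hDiv`.
Prefix `mw_diag_`.
-/
import Fermat.Agent.MW.Global.Seams
import Fermat.Agent.MW.Core.Val
import Fermat.Agent.JT3.Riemann.FBar

set_option autoImplicit false
set_option linter.unusedSectionVars false

noncomputable section

namespace Fermat.Agent.MW

open AlgebraicCurve ModularCurve Fermat.Agent.JT3 Fermat.Agent.S24
open scoped Classical

variable {N : ℕ} [NeZero N]

/-- membership in `L(m∞)` in terms of orders -/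
theorem mw_diag_mem_L_iff (Pinf : mw_X N) (m : ℕ) {f : mw_F N} (hf : f ≠ 0) :
    f ∈ riemannRochSpace (Finsupp.single Pinf (m : ℤ)) ↔
      (-(m : ℤ) ≤ Pinf.ord f ∧ ∀ z : mw_X N, z ≠ Pinf → 0 ≤ z.ord f) := by
  rw [rt_mem_L_iff hf]
  constructor
  · intro h
    refine ⟨?_, fun z hz => ?_⟩
    · have := h Pinf
      rwa [Finsupp.single_eq_same] at this
    · have := h z
      rwa [Finsupp.single_eq_of_ne hz, neg_zero] at this
  · rintro ⟨h1, h2⟩ z
    by_cases hz : z = Pinf
    · subst hz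
      rwa [Finsupp.single_eq_same]
    · rw [Finsupp.single_eq_of_ne hz, neg_zero]
      exact h2 z hz

section complete

variable {Pinf : mw_X N} {m : ℕ} {s : ℕ} {y : Fin (s + 1) → mw_F N}

/-- a section of a complete system lies in `L(m∞)` -/
theorem mw_diag_sec_mem (hy : mw_IsComplete N Pinf m y) (cc : Fin (s + 1) → mw_K) :
    mw_sec y cc ∈ riemannRochSpace (Finsupp.single Pinf (m : ℤ)) := by
  rw [← hy.2, mw_sec]
  refine Submodule.sum_mem _ fun b _ => ?_
  rw [← Algebra.smul_def]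
  exact Submodule.smul_mem _ _ (Submodule.subset_span ⟨b, rfl⟩)

/-- every element of `L(m∞)` is a section of a complete system -/
theorem mw_diag_exists_cc (hy : mw_IsComplete N Pinf m y) {G : mw_F N}
    (hG : G ∈ riemannRochSpace (Finsupp.single Pinf (m : ℤ))) :
    ∃ cc : Fin (s + 1) → mw_K, mw_sec y cc = G := by
  rw [← hy.2] at hG
  obtain ⟨cc, hcc⟩ := (Submodule.mem_span_range_iff_exists_fun mw_K).1 hG
  refine ⟨cc, ?_⟩
  rw [← hcc, mw_sec]
  exact Finset.sum_congr rfl fun b _ => by rw [Algebra.smul_def]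

/-- the members of a complete system lie in `L(m∞)` -/
theorem mw_diag_y_mem (hy : mw_IsComplete N Pinf m y) (b : Fin (s + 1)) :
    y b ∈ riemannRochSpace (Finsupp.single Pinf (m : ℤ)) := by
  rw [← hy.2]
  exact Submodule.subset_span ⟨b, rfl⟩

/-- the order of the pivot is at most the order of every nonzero section -/
theorem mw_diag_ord_piv_le_sec (hy : mw_IsComplete N Pinf m y) (z : mw_X N)
    (cc : Fin (s + 1) → mw_K) (hsec : mw_sec y cc ≠ 0) :
    z.ord (y (mw_piv y z)) ≤ z.ord (mw_sec y cc) := by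
  have h : ∃ b, y b ≠ 0 := mw_v_exists_ne_zero hy.1
  obtain ⟨hb, -⟩ := mw_v_piv_spec y h z
  have := (mw_v_mem_iff z (div_ne_zero hsec hb)).mp (mw_v_sec_div_mem y h z cc)
  rw [div_eq_mul_inv, Place.ord_mul z hsec (inv_ne_zero hb), Place.ord_inv] at this
  omega

/-- **the order of the pivot** of a complete system of `L(m∞)` containing a function of exact pole
order `m` -/
theorem mw_diag_ord_piv (hy : mw_IsComplete N Pinf m y) {G₀ : mw_F N}
    (hG₀ : G₀ ∈ riemannRochSpace (Finsupp.single Pinf (m : ℤ))) (hG₀0 : G₀ ≠ 0)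
    (hord : Pinf.ord G₀ = -(m : ℤ)) (z : mw_X N) :
    z.ord (y (mw_piv y z)) = if z = Pinf then -(m : ℤ) else 0 := by
  have h : ∃ b, y b ≠ 0 := mw_v_exists_ne_zero hy.1
  obtain ⟨hb, -⟩ := mw_v_piv_spec y h z
  have hmem := (mw_diag_mem_L_iff Pinf m hb).1 (mw_diag_y_mem hy (mw_piv y z))
  by_cases hz : z = Pinf
  · rw [if_pos hz]
    subst hz
    obtain ⟨cc, hcc⟩ := mw_diag_exists_cc hy hG₀
    have := mw_diag_ord_piv_le_sec hy z cc (by rw [hcc]; exact hG₀0)
    rw [hcc, hord] at this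
    exact le_antisymm this hmem.1
  · rw [if_neg hz]
    have h1 : (1 : mw_F N) ∈ riemannRochSpace (Finsupp.single Pinf (m : ℤ)) := by
      have := rt_algebraMap_mem_L (K := mw_K) (F := mw_F N)
        (D := Finsupp.single Pinf (m : ℤ)) (by
          intro v
          by_cases hv : v = Pinf
          · subst hv
            simp
          · simp [Finsupp.single_eq_of_ne hv]) (1 : mw_K)
      rwa [map_one] at this
    obtain ⟨cc, hcc⟩ := mw_diag_exists_cc hy h1
    have := mw_diag_ord_piv_le_sec hy z cc (by rw [hcc]; exact one_ne_zero)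
    rw [hcc, Place.ord_one] at this
    exact le_antisymm this (hmem.2 z hz)

/-- **the zero divisor of a section** of a complete system of `L(m∞)`:
`Z_cc(z) = ord_z G_cc + m·[z = ∞]` -/
theorem mw_diag_zeroMult (hy : mw_IsComplete N Pinf m y) {G₀ : mw_F N}
    (hG₀ : G₀ ∈ riemannRochSpace (Finsupp.single Pinf (m : ℤ))) (hG₀0 : G₀ ≠ 0)
    (hord : Pinf.ord G₀ = -(m : ℤ)) (cc : Fin (s + 1) → mw_K) (hsec : mw_sec y cc ≠ 0)
    (z : mw_X N) :
    mw_zeroMult y cc z = z.ord (mw_sec y cc) + if z = Pinf then (m : ℤ) else 0 := by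
  have h : ∃ b, y b ≠ 0 := mw_v_exists_ne_zero hy.1
  obtain ⟨hb, -⟩ := mw_v_piv_spec y h z
  rw [mw_zeroMult, div_eq_mul_inv, Place.ord_mul z hsec (inv_ne_zero hb), Place.ord_inv,
    mw_diag_ord_piv hy hG₀ hG₀0 hord z]
  split_ifs <;> ring

end complete

/-! ### punctured sums -/

/-- the punctured sums of `[GKL]` in terms of the Weil machine -/
theorem mw_diag_finsum_eq {r : ℕ} (x : Fin (r + 1) → mw_F N) (Z : mw_Div N) (P : mw_X N) :
    (∑ᶠ z : mw_X N, if z = P then (0 : ℝ) else (Z z : ℝ) * mw_hD x P z) =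
      mw_hDiv N x Z P - (Z P : ℝ) * mw_hD x P P := by
  have hsupp : (Function.support fun z : mw_X N =>
      if z = P then (0 : ℝ) else (Z z : ℝ) * mw_hD x P z) ⊆ ↑Z.support := by
    intro z hz
    rw [Function.mem_support] at hz
    rw [Finset.mem_coe, Finsupp.mem_support_iff]
    intro h0
    apply hz
    rw [h0]
    simp
  rw [finsum_eq_sum_of_support_subset _ hsupp, mw_hDiv, Finsupp.sum]
  have h1 : ∀ z ∈ Z.support, (if z = P then (0 : ℝ) else (Z z : ℝ) * mw_hD x P z) =
      (Z z : ℝ) * mw_hD x P z - if z = P then (Z P : ℝ) * mw_hD x P P else 0 := by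
    intro z _
    by_cases hz : z = P
    · subst hz
      simp
    · simp [hz]
  rw [Finset.sum_congr rfl h1, Finset.sum_sub_distrib, Finset.sum_ite_eq']
  by_cases hP : P ∈ Z.support
  · rw [if_pos hP]
  · rw [if_neg hP, Finsupp.notMem_support_iff.1 hP]
    simp

end Fermat.Agent.MW

end
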