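/-
Project MW (S17), GLOBAL leaf **[DIAG]** (helper1), part 2: CLASSES AND THE PAIRING AGAINST `P - ∞`.

* `mw_diag_aj`        : `mw_aj N Pinf P = [P - ∞]`;
* `mw_diag_cl_eq`     : linearly equivalent degree-zero divisors have the same class;
* `mw_diag_hDiv_*`    : the Weil machine `mw_hDiv` is additive;
* `mw_diag_B_pt`      : `B(P - ∞, E) = -h_E(P) + h_E(∞)`;
* `mw_diag_norm_pt`   : `‖P - ∞‖ ≤ 2`.
Prefix `mw_diag_`.
-/
import Fermat.Agent.MW.Global.DIAG.Zero
import Fermat.Agent.MW.Move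

set_option autoImplicit false
set_option linter.unusedSectionVars false

noncomputable section

namespace Fermat.Agent.MW

open AlgebraicCurve ModularCurve Fermat.Agent.JT3 Fermat.Agent.S24
open scoped Classical

variable {N : ℕ} [NeZero N]

/-! ### classes -/

/-- `P - ∞` has degree zero -/
theorem mw_diag_pt_mem (Pinf P : mw_X N) :
    Finsupp.single P (1 : ℤ) - Finsupp.single Pinf (1 : ℤ) ∈
      Divisor.degZero (K := mw_K) (F := mw_F N) := by
  rw [Divisor.mem_degZero, map_sub, rt_degree_single (rt_isSepGen_jBar N),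
    rt_degree_single (rt_isSepGen_jBar N), sub_self]

/-- the Abel–Jacobi class is the class of `P - ∞` -/
theorem mw_diag_aj (Pinf P : mw_X N) :
    mw_aj N Pinf P = mw_cl ⟨_, mw_diag_pt_mem Pinf P⟩ := by
  rw [mw_aj, dif_pos (mw_diag_pt_mem Pinf P)]

/-- linearly equivalent degree-zero divisors have the same class -/
theorem mw_diag_cl_eq (D E : mw_Div0 N) (f : mw_F N) (hf : f ≠ 0)
    (h : ∀ z : mw_X N, D.1 z - E.1 z = z.ord f) : mw_cl D = mw_cl E := by
  unfold mw_cl Pic0.mk
  rw [QuotientAddGroup.eq, AddSubgroup.mem_addSubgroupOf]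
  refine ⟨f⁻¹, inv_ne_zero hf, fun z => ?_⟩
  rw [Place.ord_inv, ← h z]
  simp only [AddSubgroup.coe_add, NegMemClass.coe_neg, Finsupp.add_apply, Finsupp.neg_apply]
  ring

/-! ### the Weil machine is additive -/

section hDiv

variable {r : ℕ} (x : Fin (r + 1) → mw_F N)

theorem mw_diag_hDiv_add (D D' : mw_Div N) (P : mw_X N) :
    mw_hDiv N x (D + D') P = mw_hDiv N x D P + mw_hDiv N x D' P := by
  unfold mw_hDiv
  exact Finsupp.sum_add_index' (fun z => by simp) (fun z m n => by push_cast; ring)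

theorem mw_diag_hDiv_neg (D : mw_Div N) (P : mw_X N) :
    mw_hDiv N x (-D) P = - mw_hDiv N x D P := by
  unfold mw_hDiv
  rw [Finsupp.sum_neg_index (fun z => by simp), Finsupp.sum, Finsupp.sum, ← Finset.sum_neg_distrib]
  exact Finset.sum_congr rfl fun z _ => by push_cast; ring

theorem mw_diag_hDiv_sub (D D' : mw_Div N) (P : mw_X N) :
    mw_hDiv N x (D - D') P = mw_hDiv N x D P - mw_hDiv N x D' P := by
  rw [sub_eq_add_neg, mw_diag_hDiv_add, mw_diag_hDiv_neg, ← sub_eq_add_neg]

theorem mw_diag_hDiv_single (z : mw_X N) (n : ℤ) (P : mw_X N) :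
    mw_hDiv N x (Finsupp.single z n) P = (n : ℝ) * mw_hD x P z := by
  unfold mw_hDiv
  rw [Finsupp.sum_single_index]
  simp

/-- `B(P, E) = -h_E(P)` -/
theorem mw_diag_B_single (P : mw_X N) (E : mw_Div N) :
    mw_B x (Finsupp.single P (1 : ℤ)) E = - mw_hDiv N x E P := by
  unfold mw_B mw_hDiv
  rw [Finsupp.sum_single_index (by simp)]
  congr 1
  exact Finsupp.sum_congr fun Q _ => by rw [one_mul]

/-- `B(P - ∞, E) = -h_E(P) + h_E(∞)` -/
theorem mw_diag_B_pt (Pinf P : mw_X N) (E : mw_Div N) :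
    mw_B x (Finsupp.single P (1 : ℤ) - Finsupp.single Pinf (1 : ℤ)) E =
      - mw_hDiv N x E P + mw_hDiv N x E Pinf := by
  rw [mw_bil_B_sub_left, mw_diag_B_single, mw_diag_B_single]
  ring

end hDiv

/-! ### norms -/

theorem mw_diag_norm_pt (Pinf P : mw_X N) :
    mw_norm (Finsupp.single P (1 : ℤ) - Finsupp.single Pinf (1 : ℤ) : mw_Div N) ≤ 2 := by
  refine (mw_bil_norm_sub_le _ _).trans ?_
  have h1 := mw_mv_norm_single_le P 1
  have h2 := mw_mv_norm_single_le Pinf 1
  simp only [Nat.cast_one] at h1 h2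
  omega

theorem mw_diag_support_pt (Pinf P : mw_X N) :
    (Finsupp.single P (1 : ℤ) - Finsupp.single Pinf (1 : ℤ) : mw_Div N).support ⊆ {P, Pinf} := by
  refine Finsupp.support_sub.trans ?_
  intro z hz
  rcases Finset.mem_union.1 hz with h | h
  · rw [Finset.mem_insert]
    exact Or.inl (Finset.mem_singleton.1 (Finsupp.support_single_subset h))
  · rw [Finset.mem_insert, Finset.mem_singleton]
    exact Or.inr (Finset.mem_singleton.1 (Finsupp.support_single_subset h))

end Fermat.Agent.MW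

end
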