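/-
Project MW (S17), GLOBAL leaf **[DIAG]** (helper1), part 3: ONE CONFIGURATION `(t, F)`.

`y` a basis of `L((m+1)∞)`, `y'` a basis of `L(m∞)`, `t ∈ L((m+1)∞)` of exact pole order `m + 1`,
`F = m∞ + div f ≥ 0` with `F(∞) = 0`.  For every `P ≠ ∞` which is unramified for `t` and outside
`supp F`:  `[P - ∞] = [F - Σ' z]`, `Σ' z := div(t - t(P)) + (m+1)∞ - P`, the two representatives
have disjoint supports and norm `≤ 2(m+1)`, and with the constants of `[GKL]` (for `y`, `y'`), `[HY]`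
(for `y`, `y'`) and of the pairing `β`:
`|β([P-∞],[P-∞]) - (h_𝔊(P) + 2 h_Δ(P,∞))| ≤ Cβ + 2CG + CG' + CY + CY' + |h_F(∞) - h(cc') - h_y(∞)|`.
Prefix `mw_diag_`.
-/
import Fermat.Agent.MW.Global.DIAG.Pair

set_option autoImplicit false
set_option linter.unusedSectionVars false
set_option maxHeartbeats 1000000

noncomputable section

namespace Fermat.Agent.MW

open AlgebraicCurve ModularCurve Fermat.Agent.JT3 Fermat.Agent.S24
open scoped Classical

variable {N : ℕ} [NeZero N]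

theorem mw_diag_single_nonneg (Pinf : mw_X N) (m : ℕ) :
    (0 : mw_Div N) ≤ Finsupp.single Pinf (m : ℤ) := by
  intro v
  by_cases hv : v = Pinf
  · subst hv
    simp
  · simp [Finsupp.single_eq_of_ne hv]

theorem mw_diag_sec_zero {s : ℕ} (y : Fin (s + 1) → mw_F N) : mw_sec y 0 = 0 := by
  simp [mw_sec]

theorem mw_diag_one {r : ℕ} (x : Fin (r + 1) → mw_F N) (Pinf : mw_X N)
    (β : JZero N → JZero N → ℝ) (m : ℕ) {s s' : ℕ} (y : Fin (s + 1) → mw_F N)
    (y' : Fin (s' + 1) → mw_F N) (hy : mw_IsComplete N Pinf (m + 1) y)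
    (hy' : mw_IsComplete N Pinf m y') (Cβ CG CG' CY CY' : ℝ)
    (hCβ : ∀ D E : mw_Div0 N, mw_norm D.1 ≤ 2 * (m + 1) → mw_norm E.1 ≤ 2 * (m + 1) →
      Disjoint D.1.support E.1.support → |β (mw_cl D) (mw_cl E) - mw_B x D.1 E.1| ≤ Cβ)
    (hCG : ∀ (cc : Fin (s + 1) → mw_K) (P : mw_X N) (π : mw_F N) (μ : ℕ), cc ≠ 0 →
      mw_zeroMult y cc P = (μ : ℤ) → (1 ≤ μ → P.ord π = 1) →
      |(∑ᶠ z : mw_X N, if z = P then (0 : ℝ) else (mw_zeroMult y cc z : ℝ) * mw_hD x P z)
        - (mw_ht (mw_vec y P) + mw_ht cc + (μ : ℝ) * mw_hGauss N x P π)| ≤ CG)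
    (hCG' : ∀ (cc : Fin (s' + 1) → mw_K) (P : mw_X N) (π : mw_F N) (μ : ℕ), cc ≠ 0 →
      mw_zeroMult y' cc P = (μ : ℤ) → (1 ≤ μ → P.ord π = 1) →
      |(∑ᶠ z : mw_X N, if z = P then (0 : ℝ) else (mw_zeroMult y' cc z : ℝ) * mw_hD x P z)
        - (mw_ht (mw_vec y' P) + mw_ht cc + (μ : ℝ) * mw_hGauss N x P π)| ≤ CG')
    (hCY : ∀ P : mw_X N, P ≠ Pinf →
      |mw_ht (mw_vec y P) - ((m + 1 : ℕ) : ℝ) * mw_hD x P Pinf| ≤ CY)
    (hCY' : ∀ P : mw_X N, P ≠ Pinf → |mw_ht (mw_vec y' P) - (m : ℝ) * mw_hD x P Pinf| ≤ CY')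
    (t : mw_F N) (ht : t ∈ riemannRochSpace (Finsupp.single Pinf ((m + 1 : ℕ) : ℤ)))
    (htord : Pinf.ord t = -((m + 1 : ℕ) : ℤ))
    (F : mw_Div N) (f : mw_F N) (hf : f ≠ 0) (hF0 : 0 ≤ F)
    (hF : ∀ z : mw_X N, F z = (Finsupp.single Pinf (m : ℤ) : mw_Div N) z + z.ord f)
    (hFinf : F Pinf = 0) (cc' : Fin (s' + 1) → mw_K) (hcc' : mw_sec y' cc' = f)
    (P : mw_X N) (π : mw_F N) (hP : P ≠ Pinf) (hπ : P.ord π = 1)
    (hunr : P.ord (t - algebraMap mw_K (mw_F N) (mw_val P t)) = 1) (hFP : F P = 0) :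
    |β (mw_aj N Pinf P) (mw_aj N Pinf P) - (mw_hGauss N x P π + 2 * mw_hD x P Pinf)| ≤
      Cβ + 2 * CG + CG' + CY + CY' +
        |mw_hDiv N x F Pinf - mw_ht cc' - mw_ht (mw_vec y Pinf)| := by
  have hxj := rt_isSepGen_jBar N
  -- the section `G = t - t(P)`
  set G : mw_F N := t - algebraMap mw_K (mw_F N) (mw_val P t) with hG
  have hGne : G ≠ 0 := by
    intro h
    rw [h, Place.ord_zero] at hunr
    exact zero_ne_one hunr
  have hGmem : G ∈ riemannRochSpace (Finsupp.single Pinf ((m + 1 : ℕ) : ℤ)) :=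
    sub_mem ht (rt_algebraMap_mem_L (mw_diag_single_nonneg Pinf (m + 1)) _)
  have htne : t ≠ 0 := by
    intro h
    rw [h, Place.ord_zero] at htord
    push_cast at htord
    omega
  have hGord : Pinf.ord G = -((m + 1 : ℕ) : ℤ) := by
    by_cases hc : mw_val P t = 0
    · rw [hG, hc, map_zero, sub_zero]
      exact htord
    · have hc' : algebraMap mw_K (mw_F N) (mw_val P t) ≠ 0 := by simpa using hc
      rw [hG, sub_eq_add_neg, hw_ord_add_eq_of_lt Pinf htne (neg_ne_zero.2 hc')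
        (by rw [hw_ord_neg, hw_ord_algebraMap, htord]; push_cast; omega)]
      exact htord
  obtain ⟨cc, hcc⟩ := mw_diag_exists_cc hy hGmem
  have hccne : cc ≠ 0 := by
    rintro rfl
    apply hGne
    rw [← hcc, mw_diag_sec_zero]
  have hsec : mw_sec y cc ≠ 0 := by rw [hcc]; exact hGne
  have hZ : ∀ z : mw_X N, mw_zeroMult y cc z =
      z.ord G + if z = Pinf then ((m + 1 : ℕ) : ℤ) else 0 := fun z => by
    rw [mw_diag_zeroMult hy ht htne htord cc hsec z, hcc]
  -- the zero divisor of `G` as a section of `(m+1)∞`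
  set Zd : mw_Div N := rt_div hxj G + Finsupp.single Pinf ((m + 1 : ℕ) : ℤ) with hZd
  have hZd_apply : ∀ z : mw_X N, Zd z = mw_zeroMult y cc z := by
    intro z
    rw [hZ, hZd, Finsupp.add_apply, rt_div_apply]
    by_cases hz : z = Pinf
    · subst hz
      rw [Finsupp.single_eq_same, if_pos rfl]
    · rw [Finsupp.single_eq_of_ne hz, if_neg hz]
  have hZP : Zd P = 1 := by
    rw [hZd_apply, hZ, if_neg hP, add_zero]
    exact hunr
  have hZinf : Zd Pinf = 0 := by
    rw [hZd_apply, hZ, if_pos rfl, hGord]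
    ring
  have hZd0 : 0 ≤ Zd := by
    intro z
    rw [Finsupp.zero_apply, hZd_apply]
    exact mw_v_zeroMult_nonneg y (mw_v_exists_ne_zero hy.1) z hsec
  -- the fixed section `f` of `m∞`
  have hford : Pinf.ord f = -(m : ℤ) := by
    have := hF Pinf
    rw [hFinf, Finsupp.single_eq_same] at this
    omega
  have hfmem : f ∈ riemannRochSpace (Finsupp.single Pinf (m : ℤ)) := by
    refine (mw_diag_mem_L_iff Pinf m hf).2 ⟨hford.ge, fun z hz => ?_⟩
    have h1 := hF z
    rw [Finsupp.single_eq_of_ne hz, zero_add] at h1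
    have h2 := hF0 z
    rw [Finsupp.zero_apply] at h2
    omega
  have hcc'ne : cc' ≠ 0 := by
    rintro rfl
    apply hf
    rw [← hcc', mw_diag_sec_zero]
  have hsec' : mw_sec y' cc' ≠ 0 := by rw [hcc']; exact hf
  have hZ' : ∀ z : mw_X N, mw_zeroMult y' cc' z = F z := by
    intro z
    rw [mw_diag_zeroMult hy' hfmem hf hford cc' hsec' z, hcc', hF z]
    by_cases hz : z = Pinf
    · subst hz
      rw [Finsupp.single_eq_same, if_pos rfl, add_comm]
    · rw [Finsupp.single_eq_of_ne hz, if_neg hz, add_comm]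
  have hFeq : F = Finsupp.single Pinf (m : ℤ) + rt_div hxj f := by
    ext z
    rw [hF z, Finsupp.add_apply, rt_div_apply]
  -- the two representatives
  have hajD : mw_aj N Pinf P = mw_cl ⟨_, mw_diag_pt_mem Pinf P⟩ := mw_diag_aj Pinf P
  set Ed : mw_Div N := F - Zd + Finsupp.single P (1 : ℤ) with hEd
  have hdegF : Divisor.degree F = m := by
    rw [hFeq, map_add, rt_degree_single hxj, rt_degree_div hxj, add_zero]
  have hdegZ : Divisor.degree Zd = ((m + 1 : ℕ) : ℤ) := by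
    rw [hZd, map_add, rt_degree_single hxj, rt_degree_div hxj, zero_add]
  have hEdeg : Ed ∈ Divisor.degZero (K := mw_K) (F := mw_F N) := by
    rw [Divisor.mem_degZero, hEd, map_add, map_sub, hdegF, hdegZ, rt_degree_single hxj]
    push_cast
    ring
  have hcl : mw_cl ⟨_, mw_diag_pt_mem Pinf P⟩ = mw_cl ⟨Ed, hEdeg⟩ := by
    refine mw_diag_cl_eq _ _ (G / f) (div_ne_zero hGne hf) fun z => ?_
    show (Finsupp.single P (1 : ℤ) - Finsupp.single Pinf (1 : ℤ) : mw_Div N) z - Ed z = _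
    rw [div_eq_mul_inv, Place.ord_mul z hGne (inv_ne_zero hf), Place.ord_inv, hEd,
      Finsupp.sub_apply, Finsupp.add_apply, Finsupp.sub_apply, hF z, hZd, Finsupp.add_apply,
      rt_div_apply]
    by_cases hz : z = Pinf
    · subst hz
      rw [Finsupp.single_eq_same, Finsupp.single_eq_same, Finsupp.single_eq_same]
      push_cast
      ring
    · rw [Finsupp.single_eq_of_ne hz, Finsupp.single_eq_of_ne hz, Finsupp.single_eq_of_ne hz]
      ring
  have hnormD : mw_norm (Finsupp.single P (1 : ℤ) - Finsupp.single Pinf (1 : ℤ) : mw_Div N) ≤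
      2 * (m + 1) := (mw_diag_norm_pt Pinf P).trans (by omega)
  have hnormE : mw_norm Ed ≤ 2 * (m + 1) := by
    have h1 : (mw_norm F : ℤ) = m := by rw [mw_mv_norm_of_nonneg N hF0, hdegF]
    have h2 : (mw_norm Zd : ℤ) = ((m + 1 : ℕ) : ℤ) := by rw [mw_mv_norm_of_nonneg N hZd0, hdegZ]
    have h3 := mw_mv_norm_single_le P 1
    simp only [Nat.cast_one] at h3
    have h4 := mw_bil_norm_add_le (F - Zd) (Finsupp.single P (1 : ℤ))
    have h5 := mw_bil_norm_sub_le F Zd
    rw [hEd]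
    push_cast at h2
    omega
  have hEP : Ed P = 0 := by
    rw [hEd, Finsupp.add_apply, Finsupp.sub_apply, hFP, hZP, Finsupp.single_eq_same]
    ring
  have hEinf : Ed Pinf = 0 := by
    rw [hEd, Finsupp.add_apply, Finsupp.sub_apply, hFinf, hZinf,
      Finsupp.single_eq_of_ne (Ne.symm hP)]
    ring
  have hdisj : Disjoint
      (Finsupp.single P (1 : ℤ) - Finsupp.single Pinf (1 : ℤ) : mw_Div N).support Ed.support := by
    rw [Finset.disjoint_left]
    intro z hz hzE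
    have := mw_diag_support_pt Pinf P hz
    rw [Finset.mem_insert, Finset.mem_singleton] at this
    rw [Finsupp.mem_support_iff] at hzE
    rcases this with rfl | rfl
    · exact hzE hEP
    · exact hzE hEinf
  have hpair := hCβ ⟨_, mw_diag_pt_mem Pinf P⟩ ⟨Ed, hEdeg⟩ hnormD hnormE hdisj
  rw [← hcl, ← hajD] at hpair
  -- the pairing
  have hB : mw_B x (Finsupp.single P (1 : ℤ) - Finsupp.single Pinf (1 : ℤ)) Ed =
      -(mw_hDiv N x F P - mw_hDiv N x Zd P + mw_hD x P P) +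
        (mw_hDiv N x F Pinf - mw_hDiv N x Zd Pinf + mw_hD x P Pinf) := by
    have e1 : mw_hDiv N x Ed P = mw_hDiv N x F P - mw_hDiv N x Zd P + mw_hD x P P := by
      rw [hEd, mw_diag_hDiv_add x (F - Zd) (Finsupp.single P (1 : ℤ)) P,
        mw_diag_hDiv_sub x F Zd P, mw_diag_hDiv_single]
      push_cast
      ring
    have e2 : mw_hDiv N x Ed Pinf =
        mw_hDiv N x F Pinf - mw_hDiv N x Zd Pinf + mw_hD x P Pinf := by
      rw [hEd, mw_diag_hDiv_add x (F - Zd) (Finsupp.single P (1 : ℤ)) Pinf,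
        mw_diag_hDiv_sub x F Zd Pinf, mw_diag_hDiv_single, mw_bil_hD_symm x Pinf P]
      push_cast
      ring
    rw [mw_diag_B_pt, e1, e2]
  -- the three instances of `[GKL]`
  have hfun : (fun z : mw_X N => if z = P then (0 : ℝ) else
      (mw_zeroMult y cc z : ℝ) * mw_hD x P z) =
      fun z : mw_X N => if z = P then (0 : ℝ) else (Zd z : ℝ) * mw_hD x P z := by
    funext z
    rw [hZd_apply]
  have hfunI : (fun z : mw_X N => if z = Pinf then (0 : ℝ) else
      (mw_zeroMult y cc z : ℝ) * mw_hD x Pinf z) =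
      fun z : mw_X N => if z = Pinf then (0 : ℝ) else (Zd z : ℝ) * mw_hD x Pinf z := by
    funext z
    rw [hZd_apply]
  have hfun' : (fun z : mw_X N => if z = P then (0 : ℝ) else
      (mw_zeroMult y' cc' z : ℝ) * mw_hD x P z) =
      fun z : mw_X N => if z = P then (0 : ℝ) else (F z : ℝ) * mw_hD x P z := by
    funext z
    rw [hZ']
  have g1 := hCG cc P π 1 hccne (by rw [← hZd_apply, hZP]; rfl) (fun _ => hπ)
  rw [hfun, mw_diag_finsum_eq x Zd P, hZP] at g1
  have g2 := hCG cc Pinf π 0 hccne (by rw [← hZd_apply, hZinf]; rfl) (fun h => absurd h (by omega))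
  rw [hfunI, mw_diag_finsum_eq x Zd Pinf, hZinf] at g2
  have g3 := hCG' cc' P π 0 hcc'ne (by rw [hZ', hFP]; rfl) (fun h => absurd h (by omega))
  rw [hfun', mw_diag_finsum_eq x F P, hFP] at g3
  have g4 := hCY P hP
  have g5 := hCY' P hP
  rw [hB] at hpair
  push_cast at g1 g2 g3 g4
  rw [abs_le] at hpair g1 g2 g3 g4 g5
  have hK1 := le_abs_self (mw_hDiv N x F Pinf - mw_ht cc' - mw_ht (mw_vec y Pinf))
  have hK2 := neg_abs_le (mw_hDiv N x F Pinf - mw_ht cc' - mw_ht (mw_vec y Pinf))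
  rw [abs_le]
  constructor <;> nlinarith [hpair.1, hpair.2, g1.1, g1.2, g2.1, g2.2, g3.1, g3.2, g4.1, g4.2,
    g5.1, g5.2, hK1, hK2]

end Fermat.Agent.MW

end
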